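/-
helper39, programme MW (S17), brick QUAD-ABS, file 1: the two-sided key lemma for families, in
the vocabulary of `HM73` (`EvalPt`, `GenAt`, `famHeight`), with the integrality hypothesis in the
form delivered by `HM73.div_mem_integralClosure`.

* `IntegralOver k s t` : every `t l / s j` (`s j ≠ 0`) is integral over `k[s i / s j : i]`.
* `exists_absKLFor` : `IntegralOver k s t` gives certificates `(n, P)` with `HasCert s t n P` and
  a constant `C` with `AbsKLFor n P C`.
* `SameAt p u w` : at the point `p` both families are generated by a member, and the two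
  generators differ by a unit of `p.O`.
* `exists_const_famHeight_le`, `exists_const_abs_famHeight_sub_le` : the uniform bounds.
-/
import Fermat.Agent.MW.HM73.KLFamily
import Fermat.Agent.MW.KL39.Abs
import Fermat.Agent.MW.KL39.CertAlg

namespace Fermat.Agent.MW.Quad39

open MvPolynomial Fermat.Agent.MW.AbsHeightDef10 Fermat.Agent.MW.HM73 Fermat.Agent.MW.KL39

variable (k : Type*) {K : Type*} [Field k] [Field K] [Algebra k K] {ι ι' : Type*}

/-- Every `t l / s j` with `s j ≠ 0` is integral over the subring generated by `k` and the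
`s i / s j`: the conclusion of `HM73.div_mem_integralClosure` for all `j, l`. -/
def IntegralOver (s : ι → K) (t : ι' → K) : Prop :=
  ∀ j l, s j ≠ 0 → t l / s j ∈ integralClosure
    (Subring.closure (Set.range (algebraMap k K) ∪ Set.range fun i => s i / s j)) K

variable {k}

/-- Any finite system of dehomogenised certificates over `k` admits a constant for the absolute
key lemma. -/
theorem exists_absKLFor_of_cert [CharZero k] [Algebra.IsAlgebraic ℚ k] [Finite ι] [Finite ι']
    (n : ι → ι' → ℕ) (P : ∀ j l, Fin (n j l) → MvPolynomial ι k) :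
    ∃ C : ℝ, AbsKLFor n P C := by
  classical
  let κ := Option (Σ (j : ι) (l : ι') (i : Fin (n j l)), ↥(P j l i).support)
  let c : κ → k := fun a => match a with
    | none => 1
    | some ⟨j, l, i, m⟩ => (P j l i).coeff m.1
  have hc1 : ∃ a, c a = 1 := ⟨none, rfl⟩
  have hc : ∀ j l i, ∀ m ∈ (P j l i).support, ∃ a, c a = (P j l i).coeff m :=
    fun j l i m hm => ⟨some ⟨j, l, i, ⟨m, hm⟩⟩, rfl⟩
  obtain ⟨R0, hR0⟩ : ∃ R0 : ℕ, ∀ x : ι × ι',
      ∑ i : Fin (n x.1 x.2), (P x.1 x.2 i).support.card ≤ R0 := by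
    obtain ⟨R0, hR0⟩ := (Set.finite_range fun x : ι × ι' =>
      ∑ i : Fin (n x.1 x.2), (P x.1 x.2 i).support.card).bddAbove
    exact ⟨R0, fun x => hR0 ⟨x, rfl⟩⟩
  have hR1 : 1 ≤ max 1 R0 := le_max_left _ _
  have hR : ∀ j l, ∑ i : Fin (n j l), (P j l i).support.card ≤ max 1 R0 :=
    fun j l => (hR0 (j, l)).trans (le_max_right _ _)
  refine ⟨Real.log (max 1 R0 : ℕ) + absLogHeight c, fun σ τ hσ hrel => ?_⟩
  exact absLogHeight_sumElim_le_of_dehomCert σ τ hσ n P hrel c hc1 hc (max 1 R0) hR1 hR

/-- Integrality gives certificates and a constant for the absolute key lemma. -/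
theorem exists_absKLFor [CharZero k] [Algebra.IsAlgebraic ℚ k] [Finite ι] [Finite ι']
    (s : ι → K) (t : ι' → K) (h : IntegralOver k s t) :
    ∃ (n : ι → ι' → ℕ) (P : ∀ j l, Fin (n j l) → MvPolynomial ι k) (C : ℝ),
      HasCert s t n P ∧ AbsKLFor n P C := by
  obtain ⟨n, P, hP⟩ := exists_dehomCert_family_aeval (k := k) s t h
  obtain ⟨C, hC⟩ := exists_absKLFor_of_cert n P
  exact ⟨n, P, C, hP, hC⟩

/-- At the point `p` the two families generate "the same sheaf": each is generated by a member
and the two generators differ by a unit of `p.O`. -/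
def SameAt (p : EvalPt k K) (u : ι → K) (w : ι' → K) : Prop :=
  ∃ i0 l0, GenAt p u i0 ∧ GenAt p w l0 ∧ u i0 / w l0 ∈ p.O ∧ w l0 / u i0 ∈ p.O

theorem SameAt.symm {p : EvalPt k K} {u : ι → K} {w : ι' → K} (h : SameAt p u w) :
    SameAt p w u := by
  obtain ⟨i0, l0, h1, h2, h3, h4⟩ := h
  exact ⟨l0, i0, h2, h1, h4, h3⟩

/-- One-sided uniform bound. -/
theorem exists_const_famHeight_le [CharZero k] [Algebra.IsAlgebraic ℚ k] [Finite ι] [Finite ι']
    (u : ι → K) (w : ι' → K) (h : IntegralOver k u w) :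
    ∃ C : ℝ, ∀ p : EvalPt k K, p.IsLocal → SameAt p u w →
      famHeight p w ≤ C + famHeight p u := by
  obtain ⟨n, P, C, hcert, hKL⟩ := exists_absKLFor u w h
  refine ⟨C, fun p hp hsame => ?_⟩
  obtain ⟨i0, l0, hu, hw, h1, h2⟩ := hsame
  have hu0 := hu.1
  have hw0 := hw.1
  refine famHeight_le_of_cert hKL p hp u w hcert i0 hu (fun l => ?_) l0 hw (fun a => ?_)
  · have e : w l / u i0 = w l / w l0 * (w l0 / u i0) := by field_simp
    rw [e]
    exact p.O.mul_mem (hw.2 l) h2
  · have e : u a / w l0 = u a / u i0 * (u i0 / w l0) := by field_simp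
    rw [e]
    exact p.O.mul_mem (hu.2 a) h1

/-- **Two-sided key lemma for families.** -/
theorem exists_const_abs_famHeight_sub_le [CharZero k] [Algebra.IsAlgebraic ℚ k] [Finite ι]
    [Finite ι'] (u : ι → K) (w : ι' → K) (h1 : IntegralOver k u w) (h2 : IntegralOver k w u) :
    ∃ C : ℝ, ∀ p : EvalPt k K, p.IsLocal → SameAt p u w →
      |famHeight p u - famHeight p w| ≤ C := by
  obtain ⟨C1, hC1⟩ := exists_const_famHeight_le u w h1
  obtain ⟨C2, hC2⟩ := exists_const_famHeight_le w u h2
  refine ⟨max C1 C2, fun p hp hsame => ?_⟩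
  have a1 := hC1 p hp hsame
  have a2 := hC2 p hp hsame.symm
  rw [abs_le]
  constructor
  · have := le_max_left C1 C2
    linarith
  · have := le_max_right C1 C2
    linarith

end Fermat.Agent.MW.Quad39
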