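/-
helper39, programme MW (S17), brick QUAD-ABS, file 2: the abstract quadraticity of the height.

DATA (`PointData k K X`): an additive commutative group `X` of points (`X = J(Qbar)`), for every
point a local evaluation point `pt x : EvalPt k K` of the function field `K = K(J)`, translation
pull-backs `T a : K →ₐ[k] K` with `pt x` lying over `pt (x + a)` along `T a`, and a doubling
pull-back `Dbl : K →ₐ[k] K` with `pt x` lying over `pt (2 • x)` along `Dbl`.

A family `s : ι → K` generated at every point defines `h x := famHeight (pt x) s`.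

* `trans_of_square` (T): if for some `φ ≠ 0` the families
  `(T a (s i) * T (-a) (s j))_{(i,j)}` and `(φ * (s i * s j))_{(i,j)}` are mutually integral and
  the same at every point (theorem of the square, divisor form), then
  `∃ c, ∀ x, h (x + a) ≤ 2 * h x + c`.  More precisely `|h (x+a) + h (x-a) - 2 h x| ≤ c`
  (`abs_add_sub_le_of_square`).
* `dbl_of_cube` (M): if for some `δ ≥ 1`, `ψ ≠ 0` the families
  `(∏ m < δ, Dbl (s (I m)))_I` and `(ψ * ∏ m < 4 δ, s (I m))_I` are mutually integral and the same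
  at every point (theorem of the cube up to `δ`-torsion, divisor form), then
  `∃ c, ∀ x, 4 * h x - c ≤ h (2 • x)`; also `|h (2 • x) - 4 h x| ≤ c` (`abs_dbl_sub_le_of_cube`).
These are exactly the fields `trans` and `dbl` of `Fermat.Agent.MW.HeightData`.
-/
import Fermat.Agent.MW.Quad39.KLTwoSided
import Fermat.Agent.MW.HM39.Tensor

namespace Fermat.Agent.MW.Quad39

open Fermat.Agent.MW.AbsHeightDef10 Fermat.Agent.MW.HM73 Fermat.Agent.MW.HM39

/-- Points of an "abelian variety" seen from its function field. -/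
structure PointData (k K X : Type*) [Field k] [Field K] [Algebra k K] [AddCommGroup X] where
  /-- the evaluation point of a point -/
  pt : X → EvalPt k K
  isLocal : ∀ x, (pt x).IsLocal
  /-- pull-back of functions along translation by `a` -/
  T : X → (K →ₐ[k] K)
  liesOver_T : ∀ a x, LiesOver (T a) (pt x) (pt (x + a))
  /-- pull-back of functions along multiplication by `2` -/
  Dbl : K →ₐ[k] K
  liesOver_Dbl : ∀ x, LiesOver Dbl (pt x) (pt (2 • x))

variable {k K X : Type*} [Field k] [Field K] [Algebra k K] [AddCommGroup X]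
variable [CharZero k] [Algebra.IsAlgebraic ℚ k] {ι : Type*} [Finite ι]

namespace PointData

variable (D : PointData k K X) (s : ι → K)

/-- The height attached to the family `s`. -/
noncomputable def height (x : X) : ℝ := famHeight (D.pt x) s

theorem height_nonneg (x : X) : 0 ≤ D.height s x := famHeight_nonneg _ _

/-- (T), two-sided form. -/
theorem abs_add_sub_le_of_square (hgen : ∀ x, IsGenAt (D.pt x) s) (a : X) (φ : K) (hφ : φ ≠ 0)
    (h1 : IntegralOver k (fun ij : ι × ι => D.T a (s ij.1) * D.T (-a) (s ij.2))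
      (fun ij : ι × ι => φ * (s ij.1 * s ij.2)))
    (h2 : IntegralOver k (fun ij : ι × ι => φ * (s ij.1 * s ij.2))
      (fun ij : ι × ι => D.T a (s ij.1) * D.T (-a) (s ij.2)))
    (h3 : ∀ x, SameAt (D.pt x) (fun ij : ι × ι => D.T a (s ij.1) * D.T (-a) (s ij.2))
      (fun ij : ι × ι => φ * (s ij.1 * s ij.2))) :
    ∃ c : ℝ, ∀ x, |D.height s (x + a) + D.height s (x - a) - 2 * D.height s x| ≤ c := by
  obtain ⟨C, hC⟩ := exists_const_abs_famHeight_sub_le _ _ h1 h2
  refine ⟨C, fun x => ?_⟩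
  have key := hC (D.pt x) (D.isLocal x) (h3 x)
  -- the first family
  obtain ⟨i1, hi1⟩ := hgen (x + a)
  obtain ⟨i2, hi2⟩ := hgen (x + -a)
  have g1 : GenAt (D.pt x) (fun j => D.T a (s j)) i1 := (D.liesOver_T a x).genAt hi1
  have g2 : GenAt (D.pt x) (fun j => D.T (-a) (s j)) i2 := (D.liesOver_T (-a) x).genAt hi2
  have e1 : famHeight (D.pt x) (fun ij : ι × ι => D.T a (s ij.1) * D.T (-a) (s ij.2)) =
      D.height s (x + a) + D.height s (x - a) := by
    rw [famHeight_mul (D.pt x) (fun j => D.T a (s j)) (fun j => D.T (-a) (s j)) i1 i2 g1 g2,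
      famHeight_pullback (D.liesOver_T a x) s (hgen _),
      famHeight_pullback (D.liesOver_T (-a) x) s (hgen _), sub_eq_add_neg]
    rfl
  -- the second family
  obtain ⟨i0, hi0⟩ := hgen x
  have e2 : famHeight (D.pt x) (fun ij : ι × ι => φ * (s ij.1 * s ij.2)) =
      2 * D.height s x := by
    rw [famHeight_smul (D.pt x) (fun ij : ι × ι => s ij.1 * s ij.2) hφ,
      famHeight_mul (D.pt x) s s i0 i0 hi0 hi0, two_mul]
    rfl
  rw [e1, e2] at key
  exact key

/-- **(T)**: the translation inequality `h (x + a) ≤ 2 h x + c_a`. -/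
theorem trans_of_square (hgen : ∀ x, IsGenAt (D.pt x) s) (a : X) (φ : K) (hφ : φ ≠ 0)
    (h1 : IntegralOver k (fun ij : ι × ι => D.T a (s ij.1) * D.T (-a) (s ij.2))
      (fun ij : ι × ι => φ * (s ij.1 * s ij.2)))
    (h2 : IntegralOver k (fun ij : ι × ι => φ * (s ij.1 * s ij.2))
      (fun ij : ι × ι => D.T a (s ij.1) * D.T (-a) (s ij.2)))
    (h3 : ∀ x, SameAt (D.pt x) (fun ij : ι × ι => D.T a (s ij.1) * D.T (-a) (s ij.2))
      (fun ij : ι × ι => φ * (s ij.1 * s ij.2))) :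
    ∃ c : ℝ, ∀ x, D.height s (x + a) ≤ 2 * D.height s x + c := by
  obtain ⟨c, hc⟩ := D.abs_add_sub_le_of_square s hgen a φ hφ h1 h2 h3
  refine ⟨c, fun x => ?_⟩
  have h := (abs_le.mp (hc x)).2
  have h0 := D.height_nonneg s (x - a)
  linarith

/-- (M), two-sided form. -/
theorem abs_dbl_sub_le_of_cube (hgen : ∀ x, IsGenAt (D.pt x) s) (δ : ℕ) (hδ : 0 < δ) (ψ : K)
    (hψ : ψ ≠ 0)
    (h1 : IntegralOver k (fun I : Fin δ → ι => ∏ m, D.Dbl (s (I m)))
      (fun I : Fin (4 * δ) → ι => ψ * ∏ m, s (I m)))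
    (h2 : IntegralOver k (fun I : Fin (4 * δ) → ι => ψ * ∏ m, s (I m))
      (fun I : Fin δ → ι => ∏ m, D.Dbl (s (I m))))
    (h3 : ∀ x, SameAt (D.pt x) (fun I : Fin δ → ι => ∏ m, D.Dbl (s (I m)))
      (fun I : Fin (4 * δ) → ι => ψ * ∏ m, s (I m))) :
    ∃ c : ℝ, ∀ x, |D.height s (2 • x) - 4 * D.height s x| ≤ c := by
  obtain ⟨C, hC⟩ := exists_const_abs_famHeight_sub_le _ _ h1 h2
  have hδ' : (0 : ℝ) < δ := by exact_mod_cast hδ
  refine ⟨C / δ, fun x => ?_⟩
  have key := hC (D.pt x) (D.isLocal x) (h3 x)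
  obtain ⟨i1, hi1⟩ := hgen (2 • x)
  have g1 : GenAt (D.pt x) (fun j => D.Dbl (s j)) i1 := (D.liesOver_Dbl x).genAt hi1
  have e1 : famHeight (D.pt x) (fun I : Fin δ → ι => ∏ m, D.Dbl (s (I m))) =
      δ * D.height s (2 • x) := by
    rw [famHeight_pow (α := Fin δ) (D.pt x) (fun j => D.Dbl (s j)) i1 g1,
      famHeight_pullback (D.liesOver_Dbl x) s (hgen _), Fintype.card_fin]
    rfl
  obtain ⟨i0, hi0⟩ := hgen x
  have e2 : famHeight (D.pt x) (fun I : Fin (4 * δ) → ι => ψ * ∏ m, s (I m)) =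
      (4 * δ : ℕ) * D.height s x := by
    rw [famHeight_smul (D.pt x) (fun I : Fin (4 * δ) → ι => ∏ m, s (I m)) hψ,
      famHeight_pow (α := Fin (4 * δ)) (D.pt x) s i0 hi0, Fintype.card_fin]
    rfl
  rw [e1, e2] at key
  have e3 : (δ : ℝ) * D.height s (2 • x) - ((4 * δ : ℕ) : ℝ) * D.height s x =
      δ * (D.height s (2 • x) - 4 * D.height s x) := by
    push_cast; ring
  rw [e3, abs_mul, abs_of_pos hδ'] at key
  rw [le_div_iff₀ hδ']
  linarith

/-- **(M)**: the doubling inequality `4 h x - c ≤ h (2 • x)`. -/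
theorem dbl_of_cube (hgen : ∀ x, IsGenAt (D.pt x) s) (δ : ℕ) (hδ : 0 < δ) (ψ : K)
    (hψ : ψ ≠ 0)
    (h1 : IntegralOver k (fun I : Fin δ → ι => ∏ m, D.Dbl (s (I m)))
      (fun I : Fin (4 * δ) → ι => ψ * ∏ m, s (I m)))
    (h2 : IntegralOver k (fun I : Fin (4 * δ) → ι => ψ * ∏ m, s (I m))
      (fun I : Fin δ → ι => ∏ m, D.Dbl (s (I m))))
    (h3 : ∀ x, SameAt (D.pt x) (fun I : Fin δ → ι => ∏ m, D.Dbl (s (I m)))
      (fun I : Fin (4 * δ) → ι => ψ * ∏ m, s (I m))) :
    ∃ c : ℝ, ∀ x, 4 * D.height s x - c ≤ D.height s (2 • x) := by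
  obtain ⟨c, hc⟩ := D.abs_dbl_sub_le_of_cube s hgen δ hδ ψ hψ h1 h2 h3
  refine ⟨c, fun x => ?_⟩
  have h := (abs_le.mp (hc x)).1
  linarith

end PointData

end Fermat.Agent.MW.Quad39
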